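import Mathlib

set_option autoImplicit false

namespace Fermat.Agent.S57

open IsLocalRing RingTheory.Sequence Submodule Pointwise

universe u v

/-- `depth N ≤ dim A/P` for an associated prime `P` of `N` (in terms of a given regular
sequence). -/
theorem length_le_ringKrullDim_quotient {A : Type u} [CommRing A] [IsLocalRing A]
    [IsNoetherianRing A] (zs : List A) :
    ∀ (N : Type v) [AddCommGroup N] [Module A N] [Module.Finite A N]
    (_ : ∀ z ∈ zs, z ∈ maximalIdeal A) (_ : IsWeaklyRegular N zs) (P : Ideal A)
    (_ : IsAssociatedPrime P N), (zs.length : WithBot ℕ∞) ≤ ringKrullDim (A ⧸ P) := by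
  induction zs with
  | nil =>
    intro N _ _ _ _ _ P hP
    have := hP.isPrime
    simpa using ringKrullDim_nonneg_of_nontrivial
  | cons x zs ih =>
    intro N _ _ _ hmem hreg P hP
    have hPprime := hP.isPrime
    rw [isWeaklyRegular_cons_iff] at hreg
    obtain ⟨hx, hreg'⟩ := hreg
    obtain ⟨-, v, hv⟩ := isAssociatedPrime_iff.1 hP
    have hxm : x ∈ maximalIdeal A := hmem x List.mem_cons_self
    have hv0 : v ≠ 0 := by
      rintro rfl
      apply hPprime.ne_top
      rw [hv]
      ext a
      simp [mem_colon_singleton]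
    have hxP : x ∉ P := by
      intro hxP
      rw [hv, mem_colon_singleton, mem_bot] at hxP
      exact hv0 (hx.right_eq_zero_of_smul hxP)
    -- the `P`-torsion
    let T : Submodule A N := torsionBySet A N P
    have hvT : v ∈ T := by
      rw [mem_torsionBySet_iff]
      rintro ⟨a, ha⟩
      have : a ∈ (⊥ : Submodule A N).colon {v} := hv ▸ ha
      simpa [mem_colon_singleton] using this
    have hT : ¬ T ≤ x • (⊤ : Submodule A N) := by
      intro hle
      have hT' : T ≤ (Ideal.span {x}) • T := by
        intro w hw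
        obtain ⟨w', -, rfl⟩ := (mem_smul_pointwise_iff_exists _ _ _).1 (hle hw)
        rw [ideal_span_singleton_smul]
        refine smul_mem_pointwise_smul _ _ _ ?_
        rw [mem_torsionBySet_iff] at hw ⊢
        intro a
        apply hx.right_eq_zero_of_smul
        rw [smul_comm]
        exact hw a
      have hbot : T = ⊥ := by
        refine eq_bot_of_le_smul_of_le_jacobson_bot (Ideal.span {x}) T
          (IsNoetherian.noetherian T) hT' ?_
        rw [IsLocalRing.jacobson_eq_maximalIdeal ⊥ bot_ne_top, Ideal.span_singleton_le_iff_mem]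
        exact hxm
      rw [hbot, mem_bot] at hvT
      exact hv0 hvT
    obtain ⟨w, hwT, hw⟩ := Set.not_subset.1 hT
    have hw0 : (Submodule.Quotient.mk w : QuotSMulTop x N) ≠ 0 := by
      rw [Ne, Submodule.Quotient.mk_eq_zero]
      exact hw
    obtain ⟨Q, hQ, hQle⟩ := exists_le_isAssociatedPrime_of_isNoetherianRing A _ hw0
    have hQprime := hQ.isPrime
    have hPQ : P ≤ Q := by
      intro a ha
      apply hQle
      rw [mem_colon_singleton, mem_bot, ← Submodule.Quotient.mk_smul]
      have hwT' : w ∈ torsionBySet A N P := hwT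
      rw [mem_torsionBySet_iff] at hwT'
      rw [hwT' ⟨a, ha⟩, Submodule.Quotient.mk_zero]
    have hxQ : x ∈ Q := by
      apply hQle
      rw [mem_colon_singleton, mem_bot, ← Submodule.Quotient.mk_smul,
        Submodule.Quotient.mk_eq_zero]
      exact smul_mem_pointwise_smul _ _ _ mem_top
    have ih' := ih (QuotSMulTop x N) (fun z hz => hmem z (List.mem_cons_of_mem _ hz)) hreg' Q hQ
    have hdim : ringKrullDim (A ⧸ Q) + 1 ≤ ringKrullDim (A ⧸ P) := by
      refine ringKrullDim_succ_le_of_surjective (Ideal.Quotient.factor hPQ)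
        (Ideal.Quotient.factor_surjective hPQ) (r := Ideal.Quotient.mk P x) ?_ ?_
      · rw [mem_nonZeroDivisors_iff_ne_zero, Ne, Ideal.Quotient.eq_zero_iff_mem]
        exact hxP
      · rw [Ideal.Quotient.factor_mk, Ideal.Quotient.eq_zero_iff_mem]
        exact hxQ
    calc (((x :: zs).length : ℕ) : WithBot ℕ∞) = (zs.length : WithBot ℕ∞) + 1 := by
          simp
      _ ≤ ringKrullDim (A ⧸ Q) + 1 := by gcongr
      _ ≤ _ := hdim


theorem spanFinrank_ofList_le {A : Type u} [CommRing A] (ys : List A) :
    (Ideal.ofList ys).spanFinrank ≤ ys.length := by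
  classical
  have h1 : {r | r ∈ ys} = (ys.toFinset : Set A) := by
    ext r; simp
  unfold Ideal.ofList
  refine (Submodule.spanFinrank_span_le_ncard_of_finite (by rw [h1]; exact Finset.finite_toSet _)).trans ?_
  rw [h1, Set.ncard_coe_finset]
  exact List.toFinset_card_le ys

/-- If the maximal ideal is generated by `y :: ys` and `N` has a regular sequence longer than `ys`,
then `y` is `N`-regular. -/
theorem isSMulRegular_of_ofList_eq {A : Type u} [CommRing A] [IsLocalRing A] [IsNoetherianRing A]
    (y : A) (ys : List A) (hspan : Ideal.ofList (y :: ys) = maximalIdeal A)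
    (N : Type v) [AddCommGroup N] [Module A N] [Module.Finite A N]
    (zs : List A) (hlen : ys.length < zs.length) (hmem : ∀ z ∈ zs, z ∈ maximalIdeal A)
    (hreg : IsWeaklyRegular N zs) : IsSMulRegular N y := by
  by_contra hy
  have hmemU : y ∈ ⋃ p ∈ associatedPrimes A N, (p : Set A) := by
    rw [biUnion_associatedPrimes_eq_compl_regular]; exact hy
  simp only [Set.mem_iUnion] at hmemU
  obtain ⟨P, hP, hyP⟩ := hmemU
  have hPprime : P.IsPrime := IsAssociatedPrime.isPrime hP
  have h1 := length_le_ringKrullDim_quotient zs N hmem hreg P hP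
  have h2 : ringKrullDim (A ⧸ P) ≤ (ys.length : WithBot ℕ∞) := by
    have hloc : IsLocalRing (A ⧸ P) :=
      IsLocalRing.of_surjective' (Ideal.Quotient.mk P) Ideal.Quotient.mk_surjective
    refine (ringKrullDim_le_spanFinrank_maximalIdeal (A ⧸ P)).trans ?_
    have hmax : maximalIdeal (A ⧸ P) = Ideal.ofList (ys.map (Ideal.Quotient.mk P)) := by
      rw [← map_maximalIdeal_of_surjective (Ideal.Quotient.mk P) Ideal.Quotient.mk_surjective,
        ← hspan, Ideal.map_ofList, List.map_cons, Ideal.ofList_cons,
        Ideal.Quotient.eq_zero_iff_mem.2 hyP]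
      simp
    rw [hmax]
    have := spanFinrank_ofList_le (ys.map (Ideal.Quotient.mk P))
    rw [List.length_map] at this
    exact_mod_cast this
  have h3 := h1.trans h2
  have h4 : zs.length ≤ ys.length := by exact_mod_cast h3
  omega

open CategoryTheory Abelian in
/-- Depth drops by (at most) one modulo a regular element; via the Rees theorem. -/
theorem exists_isRegular_quotSMulTop {A : Type} [CommRing A] [IsLocalRing A] [IsNoetherianRing A]
    (N : Type) [AddCommGroup N] [Module A N] [Module.Finite A N] (y : A)
    (hy : y ∈ maximalIdeal A) (hreg : IsSMulRegular N y)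
    (zs : List A) (n : ℕ) (hlen : zs.length = n + 1) (hmem : ∀ z ∈ zs, z ∈ maximalIdeal A)
    (hzs : IsRegular N zs) :
    ∃ zs' : List A, zs'.length = n ∧ (∀ z ∈ zs', z ∈ maximalIdeal A) ∧
      IsRegular (QuotSMulTop y N) zs' := by
  have hNnt : Nontrivial N := hzs.nontrivial
  have hQnt : Nontrivial (QuotSMulTop y N) := nontrivial_quotSMulTop_of_mem_maximalIdeal N hy
  let K : ModuleCat.{0} A := ModuleCat.of A (A ⧸ maximalIdeal A)
  have hKfin : Module.Finite A K := inferInstanceAs (Module.Finite A (A ⧸ maximalIdeal A))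
  have hsupp : Module.support A K = PrimeSpectrum.zeroLocus (maximalIdeal A) := by
    change Module.support A (A ⧸ maximalIdeal A) = _
    rw [Module.support_eq_zeroLocus, Ideal.annihilator_quotient]
  have hlt1 : maximalIdeal A • (⊤ : Submodule A N) < ⊤ :=
    lt_top_iff_ne_top.2 (Submodule.top_ne_ideal_smul_of_le_jacobson_annihilator
      (maximalIdeal_le_jacobson _)).symm
  have hlt2 : maximalIdeal A • (⊤ : Submodule A (QuotSMulTop y N)) < ⊤ :=
    lt_top_iff_ne_top.2 (Submodule.top_ne_ideal_smul_of_le_jacobson_annihilator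
      (maximalIdeal_le_jacobson _)).symm
  have h_ext : ∀ i < zs.length, Subsingleton (Ext K (ModuleCat.of A N) i) :=
    ModuleCat.subsingleton_ext_of_exists_isRegular (maximalIdeal A) K hsupp.subset
      (ModuleCat.of A N) hlt1 zs hmem hzs
  have h_ext' : ∀ i < n, Subsingleton (Ext K (ModuleCat.of A (QuotSMulTop y N)) i) := by
    intro i hi
    have zero1 := AddCommGrpCat.isZero_of_iff_subsingleton.mpr (h_ext i (by omega))
    have zero2 := AddCommGrpCat.isZero_of_iff_subsingleton.mpr (h_ext (i + 1) (by omega))
    exact AddCommGrpCat.subsingleton_of_isZero <| ShortComplex.Exact.isZero_of_both_zeros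
      ((Ext.covariant_sequence_exact₃' K
        (IsSMulRegular.smulShortComplex_shortExact (M := ModuleCat.of A N) hreg)) i (i + 1) rfl)
      (zero1.eq_zero_of_src _) (zero2.eq_zero_of_tgt _)
  exact ModuleCat.exists_isRegular_of_exists_subsingleton_ext (maximalIdeal A) n
    (ModuleCat.of A (QuotSMulTop y N)) hlt2 K hsupp h_ext'


/-- A special case of Auslander--Buchsbaum: over a Noetherian local ring whose maximal ideal is
generated by `n` elements, a finite module with a regular sequence of length `n` is free. -/
theorem free_of_isRegular (n : ℕ) :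
    ∀ (A : Type) [CommRing A] [IsLocalRing A] [IsNoetherianRing A]
    (ys : List A) (_ : ys.length = n) (_ : Ideal.ofList ys = maximalIdeal A)
    (N : Type) [AddCommGroup N] [Module A N] [Module.Finite A N]
    (zs : List A) (_ : zs.length = n) (_ : ∀ z ∈ zs, z ∈ maximalIdeal A) (_ : IsRegular N zs),
    Module.Free A N := by
  induction n with
  | zero =>
    intro A _ _ _ ys hys hspan N _ _ _ zs _ _ _
    rw [List.length_eq_zero_iff] at hys
    subst hys
    rw [Ideal.ofList_nil] at hspan
    have hF : IsField A := IsLocalRing.isField_iff_maximalIdeal_eq.2 hspan.symm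
    let _ := hF.toField
    exact Module.Free.of_divisionRing A N
  | succ n ih =>
    intro A _ _ _ ys hys hspan N _ _ _ zs hzs hmem hreg
    obtain ⟨y, ys', rfl⟩ : ∃ y ys', ys = y :: ys' := by
      cases ys with
      | nil => simp at hys
      | cons y ys' => exact ⟨y, ys', rfl⟩
    have hys' : ys'.length = n := by simpa using hys
    have hym : y ∈ maximalIdeal A := by
      rw [← hspan, Ideal.ofList_cons]
      exact Ideal.mem_sup_left (Ideal.mem_span_singleton_self y)
    have hy : IsSMulRegular N y :=
      isSMulRegular_of_ofList_eq y ys' hspan N zs (by omega) hmem hreg.toIsWeaklyRegular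
    obtain ⟨zs', hzs'len, hzs'mem, hzs'reg⟩ :=
      exists_isRegular_quotSMulTop N y hym hy zs n hzs hmem hreg
    have hne : Ideal.span {y} ≠ ⊤ := by
      intro h
      rw [Ideal.span_singleton_eq_top] at h
      exact hym h
    have hnt : Nontrivial (A ⧸ Ideal.span {y}) := Ideal.Quotient.nontrivial_iff.2 hne
    have hloc : IsLocalRing (A ⧸ Ideal.span {y}) :=
      IsLocalRing.of_surjective' (Ideal.Quotient.mk _) Ideal.Quotient.mk_surjective
    have hmax : Ideal.ofList (ys'.map (Ideal.Quotient.mk (Ideal.span {y}))) =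
        maximalIdeal (A ⧸ Ideal.span {y}) := by
      rw [← map_maximalIdeal_of_surjective (Ideal.Quotient.mk (Ideal.span {y}))
        Ideal.Quotient.mk_surjective, ← hspan, Ideal.map_ofList, List.map_cons, Ideal.ofList_cons,
        Ideal.Quotient.eq_zero_iff_mem.2 (Ideal.mem_span_singleton_self y)]
      simp
    have hfin : Module.Finite (A ⧸ Ideal.span {y}) (QuotSMulTop y N) :=
      Module.Finite.of_restrictScalars_finite A _ _
    have hreg' : IsRegular (QuotSMulTop y N) (zs'.map (Ideal.Quotient.mk (Ideal.span {y}))) :=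
      ((isRegular_cons_iff' N y zs').1 ((isRegular_cons_iff N y zs').2 ⟨hy, hzs'reg⟩)).2
    have hfree : Module.Free (A ⧸ Ideal.span {y}) (QuotSMulTop y N) := by
      refine ih (A ⧸ Ideal.span {y}) (ys'.map (Ideal.Quotient.mk (Ideal.span {y})))
        (by simpa using hys') hmax (QuotSMulTop y N)
        (zs'.map (Ideal.Quotient.mk (Ideal.span {y}))) (by simpa using hzs'len) ?_ hreg'
      intro z hz
      obtain ⟨z', hz', rfl⟩ := List.mem_map.1 hz
      rw [← map_maximalIdeal_of_surjective (Ideal.Quotient.mk (Ideal.span {y}))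
        Ideal.Quotient.mk_surjective]
      exact Ideal.mem_map_of_mem _ (hzs'mem z' hz')
    have hfp : Module.FinitePresentation A N := Module.finitePresentation_of_finite A N
    refine (Module.free_quotSMulTop_iff_free A N ?_ hy).1 hfree
    rw [IsLocalRing.jacobson_eq_maximalIdeal ⊥ bot_ne_top]
    exact hym

end Fermat.Agent.S57
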