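import Mathlib

set_option autoImplicit false

namespace Fermat.Agent.S57

open IsLocalRing RingTheory.Sequence Submodule MvPowerSeries

variable {𝒪 : Type} [CommRing 𝒪] {r : ℕ}

/-- The set of the first `i` variables. -/
def firstVars (𝒪 : Type) [CommRing 𝒪] (r i : ℕ) : Set (MvPowerSeries (Fin r) 𝒪) :=
  {g | ∃ k : Fin r, k.val < i ∧ g = X k}

theorem coeff_eq_zero_of_mem_span (i : ℕ) (f : MvPowerSeries (Fin r) 𝒪)
    (hf : f ∈ Ideal.span (firstVars 𝒪 r i)) (m : Fin r →₀ ℕ)
    (hm : ∀ k : Fin r, k.val < i → m k = 0) : coeff m f = 0 := by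
  classical
  induction hf using Submodule.span_induction generalizing m with
  | mem x hx =>
    obtain ⟨k, hk, rfl⟩ := hx
    rw [coeff_X, if_neg]
    rintro rfl
    have := hm k hk
    simp at this
  | zero => simp
  | add x y _ _ hx hy => rw [map_add, hx m hm, hy m hm, add_zero]
  | smul a x _ hx =>
    rw [smul_eq_mul, coeff_mul]
    refine Finset.sum_eq_zero ?_
    rintro ⟨u, v⟩ huv
    rw [Finset.HasAntidiagonal.mem_antidiagonal] at huv
    have : coeff v x = 0 := by
      apply hx
      intro k hk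
      have h1 := hm k hk
      rw [← huv] at h1
      simp only [Finsupp.coe_add, Pi.add_apply, Nat.add_eq_zero_iff] at h1
      exact h1.2
    simp [this]

theorem mem_span_of_coeff_eq_zero (i : ℕ) : ∀ (f : MvPowerSeries (Fin r) 𝒪)
    (_ : ∀ m : Fin r →₀ ℕ, (∀ k : Fin r, k.val < i → m k = 0) → coeff m f = 0),
    f ∈ Ideal.span (firstVars 𝒪 r i) := by
  induction i with
  | zero =>
    intro f hf
    have : f = 0 := by
      ext m
      rw [hf m (by simp)]
      simp
    rw [this]
    exact Submodule.zero_mem _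
  | succ i ih =>
    intro f hf
    by_cases hi : i < r
    · let k0 : Fin r := ⟨i, hi⟩
      let f2 : MvPowerSeries (Fin r) 𝒪 := fun m => if m k0 = 0 then coeff m f else 0
      have hf2 : ∀ m, coeff m f2 = if m k0 = 0 then coeff m f else 0 := fun m => rfl
      have h2 : f2 ∈ Ideal.span (firstVars 𝒪 r i) := by
        apply ih
        intro m hm
        rw [hf2]
        split_ifs with h0
        · apply hf
          intro k hk
          rcases Nat.lt_succ_iff_lt_or_eq.1 hk with h | h
          · exact hm k h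
          · have : k = k0 := Fin.ext h
            rw [this]; exact h0
        · rfl
      have h1 : (X k0 : MvPowerSeries (Fin r) 𝒪) ∣ f - f2 := by
        rw [X_dvd_iff]
        intro m hm
        rw [map_sub, hf2, if_pos hm, sub_self]
      have hmono : Ideal.span (firstVars 𝒪 r i) ≤ Ideal.span (firstVars 𝒪 r (i + 1)) := by
        apply Ideal.span_mono
        rintro g ⟨k, hk, rfl⟩
        exact ⟨k, by omega, rfl⟩
      have h1' : f - f2 ∈ Ideal.span (firstVars 𝒪 r (i + 1)) := by
        refine Ideal.mem_of_dvd _ h1 (Ideal.subset_span ⟨k0, ?_, rfl⟩)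
        simp [k0]
      have : f = (f - f2) + f2 := by ring
      rw [this]
      exact Ideal.add_mem _ h1' (hmono h2)
    · have hmono : Ideal.span (firstVars 𝒪 r i) ≤ Ideal.span (firstVars 𝒪 r (i + 1)) := by
        apply Ideal.span_mono
        rintro g ⟨k, hk, rfl⟩
        exact ⟨k, by omega, rfl⟩
      apply hmono
      apply ih
      intro m hm
      apply hf
      intro k _
      apply hm
      have := k.isLt
      omega

theorem mem_span_firstVars_iff (i : ℕ) (f : MvPowerSeries (Fin r) 𝒪) :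
    f ∈ Ideal.span (firstVars 𝒪 r i) ↔
      ∀ m : Fin r →₀ ℕ, (∀ k : Fin r, k.val < i → m k = 0) → coeff m f = 0 :=
  ⟨fun hf m hm => coeff_eq_zero_of_mem_span i f hf m hm, mem_span_of_coeff_eq_zero i f⟩

theorem ofList_take_ofFn_X (i : ℕ) :
    Ideal.ofList ((List.ofFn (X : Fin r → MvPowerSeries (Fin r) 𝒪)).take i) =
      Ideal.span (firstVars 𝒪 r i) := by
  unfold Ideal.ofList
  congr 1
  ext g
  simp only [Set.mem_ofPred_eq, firstVars, List.mem_take_iff_getElem, List.getElem_ofFn,
    List.length_ofFn]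
  constructor
  · rintro ⟨j, hj, rfl⟩
    exact ⟨⟨j, by omega⟩, by simp only; omega, rfl⟩
  · rintro ⟨k, hk, rfl⟩
    exact ⟨k.val, by have := k.isLt; omega, rfl⟩

theorem ofList_ofFn_X :
    Ideal.ofList (List.ofFn (X : Fin r → MvPowerSeries (Fin r) 𝒪)) =
      Ideal.span (firstVars 𝒪 r r) := by
  rw [← ofList_take_ofFn_X r]
  congr 1
  rw [List.take_of_length_le]
  simp

theorem mem_span_firstVars_self_iff (f : MvPowerSeries (Fin r) 𝒪) :
    f ∈ Ideal.span (firstVars 𝒪 r r) ↔ constantCoeff f = 0 := by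
  rw [mem_span_firstVars_iff]
  constructor
  · intro h
    rw [← coeff_zero_eq_constantCoeff_apply]
    exact h 0 (by simp)
  · intro h m hm
    have : m = 0 := by
      ext k
      exact hm k k.isLt
    rw [this, coeff_zero_eq_constantCoeff_apply, h]

theorem isWeaklyRegular_ofFn_X :
    IsWeaklyRegular (MvPowerSeries (Fin r) 𝒪)
      (List.ofFn (X : Fin r → MvPowerSeries (Fin r) 𝒪)) := by
  rw [isWeaklyRegular_iff]
  intro i hi
  rw [isSMulRegular_quotient_iff_mem_of_smul_mem, ofList_take_ofFn_X, List.getElem_ofFn]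
  have hi' : i < r := by simpa using hi
  intro f hf
  rw [smul_eq_mul, Ideal.mul_top] at hf ⊢
  rw [mem_span_firstVars_iff] at hf ⊢
  intro m hm
  have := hf (Finsupp.single ⟨i, hi'⟩ 1 + m) (by
    intro k hk
    have hne : (⟨i, hi'⟩ : Fin r) ≠ k := by
      intro h
      rw [← h] at hk
      simp at hk
    simp [hm k hk, hne])
  rw [smul_eq_mul, X, coeff_add_monomial_mul, one_mul] at this
  exact this

theorem isWeaklyRegular_ofFn_X_append [IsDomain 𝒪] (ϖ : 𝒪) (hϖ : ϖ ≠ 0) :
    IsWeaklyRegular (MvPowerSeries (Fin r) 𝒪)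
      (List.ofFn (X : Fin r → MvPowerSeries (Fin r) 𝒪) ++ [C ϖ]) := by
  rw [isWeaklyRegular_append_iff]
  refine ⟨isWeaklyRegular_ofFn_X, ?_⟩
  rw [isWeaklyRegular_singleton_iff, isSMulRegular_quotient_iff_mem_of_smul_mem, ofList_ofFn_X]
  intro f hf
  rw [smul_eq_mul, Ideal.mul_top] at hf ⊢
  rw [mem_span_firstVars_self_iff] at hf ⊢
  rw [smul_eq_mul, map_mul, constantCoeff_C] at hf
  exact (mul_eq_zero.1 hf).resolve_left hϖ

theorem ofList_eq_maximalIdeal [IsDomain 𝒪] [IsDiscreteValuationRing 𝒪] (ϖ : 𝒪)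
    (hϖ : Irreducible ϖ) :
    Ideal.ofList (List.ofFn (X : Fin r → MvPowerSeries (Fin r) 𝒪) ++ [C ϖ]) =
      maximalIdeal (MvPowerSeries (Fin r) 𝒪) := by
  rw [Ideal.ofList_append, ofList_ofFn_X, Ideal.ofList_singleton]
  apply le_antisymm
  · rw [sup_le_iff]
    constructor
    · intro f hf
      rw [mem_span_firstVars_self_iff] at hf
      rw [mem_maximalIdeal, mem_nonunits_iff, isUnit_iff_constantCoeff, hf]
      exact not_isUnit_zero
    · rw [Ideal.span_singleton_le_iff_mem, mem_maximalIdeal, mem_nonunits_iff,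
        isUnit_iff_constantCoeff, constantCoeff_C]
      exact hϖ.not_isUnit
  · intro f hf
    rw [mem_maximalIdeal, mem_nonunits_iff, isUnit_iff_constantCoeff] at hf
    have h1 : constantCoeff f ∈ maximalIdeal 𝒪 := hf
    rw [hϖ.maximalIdeal_eq, Ideal.mem_span_singleton] at h1
    obtain ⟨c, hc⟩ := h1
    have : f = (f - C (constantCoeff f)) + C ϖ * C c := by
      rw [hc, map_mul]; ring
    rw [this]
    refine Ideal.add_mem _ (Ideal.mem_sup_left ?_) (Ideal.mem_sup_right ?_)
    · rw [mem_span_firstVars_self_iff, map_sub, constantCoeff_C, sub_self]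
    · exact Ideal.mul_mem_right _ _ (Ideal.mem_span_singleton_self _)

end Fermat.Agent.S57
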